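/-
Programme S12 (one-step route, lead helper51), brick 757 part 9a-1 (helper82).

GENERIC vocabulary for "zero component at a valuation subring" of a Weierstrass curve over a field
`L` whose coefficients are integral at `A`, and its invariance under admissible changes of variables
that are integral and invertible at `A`.

* `IntegralAt A V`        : the coefficients of `V` lie in `A`;
* `intModel A V h`        : the model over `A`;  `redCurve A V h` : its reduction over `A/𝔪`;
* `InZeroG A V Vk P`      : `P = 0`, or `x(P) ∉ A`, or `(x, y)` integral with nonsingular reduction on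
                            `Vk` (the Prelude's `InZeroComponentAt W A P` is
                            `InZeroG A (W_ℚbar) (W mod 𝔪) P` by `Iff.rfl`: `inZeroComponentAt_iff`);
* `VCIntegralAt A C`      : `u, u⁻¹, r, s, t ∈ A`;  `redVC A C h` : the reduced change of variables;
* `redCurve_eq_of_vc`     : `V = C • V'` integral ⇒ `redCurve V = redVC C • redCurve V'`;
* `inZeroG_pointEquiv_iff`: `InZeroG A V' Vk' (pointEquiv h P) ↔ InZeroG A V Vk P`
                            for `h : V = C • V'`, `Vk = Cbar • Vk'`.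
-/
import Mathlib
import Fermat.Prelude.Def_EllipticCurve_ZeroComponentAt
import Fermat.Prelude.Def_FLTPrelim_Ramification
import Fermat.Agent.S05.Transport

set_option autoImplicit false

open WeierstrassCurve WeierstrassCurve.Affine

namespace Fermat.Agent.S12P.Model82

open Fermat.Agent.S05.Transport

section Generic

variable {L : Type*} [Field L] (A : ValuationSubring L)

/-- The coefficients of `V` are integral at `A`. -/
structure IntegralAt (V : WeierstrassCurve L) : Prop where
  a₁ : V.a₁ ∈ A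
  a₂ : V.a₂ ∈ A
  a₃ : V.a₃ ∈ A
  a₄ : V.a₄ ∈ A
  a₆ : V.a₆ ∈ A

/-- The model of `V` over `A`. -/
def intModel (V : WeierstrassCurve L) (h : IntegralAt A V) : WeierstrassCurve A :=
  ⟨⟨V.a₁, h.a₁⟩, ⟨V.a₂, h.a₂⟩, ⟨V.a₃, h.a₃⟩, ⟨V.a₄, h.a₄⟩, ⟨V.a₆, h.a₆⟩⟩

theorem intModel_map (V : WeierstrassCurve L) (h : IntegralAt A V) :
    (intModel A V h).map A.subtype = V := by
  ext <;> rfl

/-- The reduction of `V` modulo the maximal ideal of `A`. -/
def redCurve (V : WeierstrassCurve L) (h : IntegralAt A V) :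
    WeierstrassCurve (IsLocalRing.ResidueField A) :=
  (intModel A V h).map (IsLocalRing.residue A)

/-- Generic form of the Prelude's `WeierstrassCurve.InZeroComponentAt`: the point `P` of `V` lies in
the zero component at `A`, the reduction being computed on `Vk`. -/
def InZeroG (V : WeierstrassCurve L) (Vk : WeierstrassCurve (IsLocalRing.ResidueField A))
    (P : V.toAffine.Point) : Prop :=
  P = 0 ∨ ∃ (x y : L) (h : V.toAffine.Nonsingular x y), P = .some x y h ∧
    (x ∉ A ∨ ∃ (hx : x ∈ A) (hy : y ∈ A),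
      Vk.toAffine.Nonsingular (IsLocalRing.residue A ⟨x, hx⟩) (IsLocalRing.residue A ⟨y, hy⟩))

theorem inZeroG_zero (V : WeierstrassCurve L) (Vk : WeierstrassCurve (IsLocalRing.ResidueField A)) :
    InZeroG A V Vk (0 : V.toAffine.Point) := Or.inl rfl

end Generic

/-! ### Changes of variables integral and invertible at `A` -/

section VC

variable {L : Type*} [Field L] (A : ValuationSubring L)

theorem inZeroG_some_iff (V : WeierstrassCurve L)
    (Vk : WeierstrassCurve (IsLocalRing.ResidueField A)) {x y : L}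
    (h : V.toAffine.Nonsingular x y) :
    InZeroG A V Vk (.some x y h) ↔
      (x ∉ A ∨ ∃ (hx : x ∈ A) (hy : y ∈ A),
        Vk.toAffine.Nonsingular (IsLocalRing.residue A ⟨x, hx⟩) (IsLocalRing.residue A ⟨y, hy⟩)) := by
  constructor
  · rintro (h0 | ⟨x', y', h', hP, hcase⟩)
    · exact absurd h0 (by simp)
    · simp only [Point.some.injEq] at hP
      obtain ⟨rfl, rfl⟩ := hP
      exact hcase
  · intro hcase
    exact Or.inr ⟨x, y, h, rfl, hcase⟩

/-- The change of variables `C` is integral and invertible at `A`. -/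
structure VCIntegralAt (C : VariableChange L) : Prop where
  u : (C.u : L) ∈ A
  uinv : ((C.u⁻¹ : Lˣ) : L) ∈ A
  r : C.r ∈ A
  s : C.s ∈ A
  t : C.t ∈ A

/-- The change of variables over `A`. -/
def intVC (C : VariableChange L) (h : VCIntegralAt A C) : VariableChange A where
  u := ⟨⟨(C.u : L), h.u⟩, ⟨((C.u⁻¹ : Lˣ) : L), h.uinv⟩,
    Subtype.ext (by simp), Subtype.ext (by simp)⟩
  r := ⟨C.r, h.r⟩
  s := ⟨C.s, h.s⟩
  t := ⟨C.t, h.t⟩

theorem intVC_map (C : VariableChange L) (h : VCIntegralAt A C) :
    (intVC A C h).map A.subtype = C := by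
  ext <;> rfl

/-- The reduced change of variables. -/
def redVC (C : VariableChange L) (h : VCIntegralAt A C) :
    VariableChange (IsLocalRing.ResidueField A) :=
  (intVC A C h).map (IsLocalRing.residue A)

theorem intModel_eq_of_vc {V V' : WeierstrassCurve L} {C : VariableChange L}
    (hV : IntegralAt A V) (hV' : IntegralAt A V') (hC : VCIntegralAt A C) (h : V = C • V') :
    intModel A V hV = intVC A C hC • intModel A V' hV' := by
  apply WeierstrassCurve.map_injective (f := A.subtype) Subtype.val_injective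
  show (intModel A V hV).map A.subtype = (intVC A C hC • intModel A V' hV').map A.subtype
  rw [← WeierstrassCurve.map_variableChange, intVC_map, intModel_map, intModel_map, h]

/-- Reduction commutes with integral changes of variables. -/
theorem redCurve_eq_of_vc {V V' : WeierstrassCurve L} {C : VariableChange L}
    (hV : IntegralAt A V) (hV' : IntegralAt A V') (hC : VCIntegralAt A C) (h : V = C • V') :
    redCurve A V hV = redVC A C hC • redCurve A V' hV' := by
  unfold redCurve redVC
  rw [WeierstrassCurve.map_variableChange, ← intModel_eq_of_vc A hV hV' hC h]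

variable {A}

theorem vcX_mem_iff {C : VariableChange L} (hC : VCIntegralAt A C) (x : L) :
    vcX C x ∈ A ↔ x ∈ A := by
  unfold vcX
  constructor
  · intro hx
    have h1 : (C.u : L) ^ 2 * x ∈ A := by
      have := sub_mem hx hC.r
      simpa using this
    have h2 : ((C.u⁻¹ : Lˣ) : L) ^ 2 * ((C.u : L) ^ 2 * x) ∈ A :=
      mul_mem (pow_mem hC.uinv 2) h1
    have h3 : ((C.u⁻¹ : Lˣ) : L) ^ 2 * ((C.u : L) ^ 2 * x) = x := by
      rw [← mul_assoc, ← mul_pow, Units.inv_mul, one_pow, one_mul]
    rwa [h3] at h2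
  · intro hx
    exact add_mem (mul_mem (pow_mem hC.u 2) hx) hC.r

theorem vcY_mem_iff {C : VariableChange L} (hC : VCIntegralAt A C) {x : L} (hx : x ∈ A) (y : L) :
    vcY C x y ∈ A ↔ y ∈ A := by
  unfold vcY
  constructor
  · intro hy
    have h0 : (C.u : L) ^ 2 * C.s * x + C.t ∈ A :=
      add_mem (mul_mem (mul_mem (pow_mem hC.u 2) hC.s) hx) hC.t
    have h1 : (C.u : L) ^ 3 * y ∈ A := by
      have := sub_mem hy h0
      have e : (C.u : L) ^ 3 * y + (C.u : L) ^ 2 * C.s * x + C.t -
          ((C.u : L) ^ 2 * C.s * x + C.t) = (C.u : L) ^ 3 * y := by ring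
      rwa [e] at this
    have h2 : ((C.u⁻¹ : Lˣ) : L) ^ 3 * ((C.u : L) ^ 3 * y) ∈ A :=
      mul_mem (pow_mem hC.uinv 3) h1
    have h3 : ((C.u⁻¹ : Lˣ) : L) ^ 3 * ((C.u : L) ^ 3 * y) = y := by
      rw [← mul_assoc, ← mul_pow, Units.inv_mul, one_pow, one_mul]
    rwa [h3] at h2
  · intro hy
    exact add_mem (add_mem (mul_mem (pow_mem hC.u 3) hy)
      (mul_mem (mul_mem (pow_mem hC.u 2) hC.s) hx)) hC.t

theorem residue_vcX {C : VariableChange L} (hC : VCIntegralAt A C) {x : L} (hx : x ∈ A)
    (hx' : vcX C x ∈ A) :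
    IsLocalRing.residue A ⟨vcX C x, hx'⟩ = vcX (redVC A C hC) (IsLocalRing.residue A ⟨x, hx⟩) := by
  have e : (⟨vcX C x, hx'⟩ : A) = (⟨(C.u : L), hC.u⟩ : A) ^ 2 * ⟨x, hx⟩ + ⟨C.r, hC.r⟩ :=
    Subtype.ext rfl
  rw [e, map_add, map_mul, map_pow]
  rfl

theorem residue_vcY {C : VariableChange L} (hC : VCIntegralAt A C) {x y : L} (hx : x ∈ A)
    (hy : y ∈ A) (hy' : vcY C x y ∈ A) :
    IsLocalRing.residue A ⟨vcY C x y, hy'⟩ =
      vcY (redVC A C hC) (IsLocalRing.residue A ⟨x, hx⟩) (IsLocalRing.residue A ⟨y, hy⟩) := by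
  have e : (⟨vcY C x y, hy'⟩ : A) = (⟨(C.u : L), hC.u⟩ : A) ^ 3 * ⟨y, hy⟩ +
      (⟨(C.u : L), hC.u⟩ : A) ^ 2 * ⟨C.s, hC.s⟩ * ⟨x, hx⟩ + ⟨C.t, hC.t⟩ :=
    Subtype.ext rfl
  rw [e, map_add, map_add, map_mul, map_mul, map_mul, map_pow, map_pow]
  rfl

variable [DecidableEq L]

/-- **Invariance of the zero component** under a change of variables integral and invertible at
`A`: for `V = C • V'` and reductions `Vk = Cbar • Vk'`. -/
theorem inZeroG_pointEquiv_iff {V V' : WeierstrassCurve L} {C : VariableChange L}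
    (hC : VCIntegralAt A C) (h : V = C • V')
    {Vk Vk' : WeierstrassCurve (IsLocalRing.ResidueField A)} (hk : Vk = redVC A C hC • Vk')
    (P : V.toAffine.Point) :
    InZeroG A V' Vk' (pointEquiv h P) ↔ InZeroG A V Vk P := by
  rcases P with _ | ⟨x, y, hxy⟩
  · exact ⟨fun _ => Or.inl rfl, fun _ => Or.inl rfl⟩
  · rw [Fermat.Agent.S05.Transport.pointEquiv_some, inZeroG_some_iff, inZeroG_some_iff]
    refine or_congr (not_congr (vcX_mem_iff hC x)) ?_
    constructor
    · rintro ⟨hx', hy', hns⟩
      have hx : x ∈ A := (vcX_mem_iff hC x).mp hx'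
      have hy : y ∈ A := (vcY_mem_iff hC hx y).mp hy'
      refine ⟨hx, hy, ?_⟩
      rw [residue_vcX hC hx hx', residue_vcY hC hx hy hy'] at hns
      exact (nonsingular_iff_vc hk _ _).mp hns
    · rintro ⟨hx, hy, hns⟩
      have hx' : vcX C x ∈ A := (vcX_mem_iff hC x).mpr hx
      have hy' : vcY C x y ∈ A := (vcY_mem_iff hC hx y).mpr hy
      refine ⟨hx', hy', ?_⟩
      rw [residue_vcX hC hx hx', residue_vcY hC hx hy hy']
      exact (nonsingular_iff_vc hk _ _).mpr hns

/-- Version with the reductions computed from integral models. -/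
theorem inZeroG_pointEquiv_iff' {V V' : WeierstrassCurve L} {C : VariableChange L}
    (hV : IntegralAt A V) (hV' : IntegralAt A V') (hC : VCIntegralAt A C) (h : V = C • V')
    (P : V.toAffine.Point) :
    InZeroG A V' (redCurve A V' hV') (pointEquiv h P) ↔ InZeroG A V (redCurve A V hV) P :=
  inZeroG_pointEquiv_iff hC h (redCurve_eq_of_vc A hV hV' hC h) P

end VC

/-- The Prelude's predicate is the generic one. -/
theorem inZeroComponentAt_iff (W : WeierstrassCurve ℤ) (A : ValuationSubring (AlgebraicClosure ℚ))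
    (P : ((W.map (Int.castRingHom ℚ))⁄(AlgebraicClosure ℚ)).Point) :
    W.InZeroComponentAt A P ↔
      InZeroG A ((W.map (Int.castRingHom ℚ))⁄(AlgebraicClosure ℚ))
        (W.map (Int.castRingHom (IsLocalRing.ResidueField A))) P :=
  Iff.rfl

end Fermat.Agent.S12P.Model82
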