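/-
Programme S12 (one-step route, lead helper51), brick 757 part 9a-2 (helper82).

**A `ℤ`-model, up to a `p`-power scaling, of a Weierstrass curve over `ℚbar` with rational
coefficients that are integral away from `p`.**

* `scaleVC u`             : the change of variables `(x, y) ↦ (u² x, u³ y)`;
* `den_eq_prime_pow`      : a rational number that is integral at one place over every prime
                            `ℓ ≠ p` has denominator a power of `p`;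
* `exists_int_model`      : `V / ℚbar` with Galois-fixed coefficients, integral at one place over every
                            prime `ℓ ≠ p`  ⇒  `∃ k, ∃ W' : WeierstrassCurve ℤ,
                            V = scaleVC (p^k) • (W'_ℚ ⁄ ℚbar)`;
* `inZeroComponentAt_pointEquiv_iff` : for such a model and `A` over `ℓ ≠ p`:
                            `W'.InZeroComponentAt A (pointEquiv h P) ↔ InZeroG A V (V mod 𝔪) P`;
* `intCast_Δ_eq`, `intCast_c₄_eq`, `int_Δ_ne_zero`, `dvd_Δ_iff`, `dvd_c₄_iff` : discriminant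
                            and `c₄` of the `ℤ`-model against those of `V`.
-/
import Mathlib
import Fermat.Agent.S12P.Model82.Scale
import Fermat.Agent.S05.Inertia
import Fermat.Agent.S13.GalRat

set_option autoImplicit false

open WeierstrassCurve WeierstrassCurve.Affine

namespace Fermat.Agent.S12P.Model82

open Fermat.Agent.S05.Transport Fermat.Agent.S05.Inertia

local notation "Qb" => AlgebraicClosure ℚ

/-! ### Scaling -/

section ScaleVC

variable {L : Type*} [Field L]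

/-- The change of variables `(x, y) ↦ (u² x, u³ y)`. -/
def scaleVC (u : Lˣ) : VariableChange L := ⟨u, 0, 0, 0⟩

theorem vcIntegralAt_scaleVC (A : ValuationSubring L) (u : Lˣ) (hu : A.valuation (u : L) = 1) :
    VCIntegralAt A (scaleVC u) where
  u := (A.valuation_le_one_iff _).mp hu.le
  uinv := by
    refine (A.valuation_le_one_iff _).mp ?_
    show A.valuation (((scaleVC u).u⁻¹ : Lˣ) : L) ≤ 1
    have : (((scaleVC u).u⁻¹ : Lˣ) : L) = (u : L)⁻¹ := by simp [scaleVC]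
    rw [this, map_inv₀, hu, inv_one]
  r := A.zero_mem
  s := A.zero_mem
  t := A.zero_mem

end ScaleVC

/-! ### Rational numbers integral away from `p` -/

section Rat

/-- A rational number lying in a valuation subring over `ℓ` has denominator prime to `ℓ`. -/
theorem not_dvd_den_of_mem {ℓ : ℕ} (hℓ : ℓ.Prime) {A : ValuationSubring Qb}
    (hA : A.LiesOverPrime ℓ) {q : ℚ} (hq : (q : Qb) ∈ A) : ¬ ℓ ∣ q.den := by
  intro hdvd
  have hnum : ¬ (ℓ : ℤ) ∣ q.num := by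
    intro h
    have h1 : ℓ ∣ q.num.natAbs := Int.natCast_dvd.mp h
    have h2 : ℓ ∣ Nat.gcd q.num.natAbs q.den := Nat.dvd_gcd h1 hdvd
    rw [q.reduced] at h2
    exact hℓ.one_lt.ne' (Nat.dvd_one.mp h2)
  have hvnum : A.valuation ((q.num : ℤ) : Qb) = 1 := valuation_intCast_eq_one hℓ hA hnum
  have hvden : A.valuation ((q.den : ℕ) : Qb) < 1 :=
    (valuation_natCast_lt_one_iff hℓ hA q.den).mpr hdvd
  have hden0 : ((q.den : ℕ) : Qb) ≠ 0 := by exact_mod_cast q.den_ne_zero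
  have hq' : (q : Qb) * ((q.den : ℕ) : Qb) = ((q.num : ℤ) : Qb) := by
    have := Rat.mul_den_eq_num q
    exact_mod_cast congrArg (fun r : ℚ => (r : Qb)) this
  have hle : A.valuation (q : Qb) ≤ 1 := (A.valuation_le_one_iff _).mpr hq
  have : A.valuation ((q.num : ℤ) : Qb) < 1 := by
    rw [← hq', map_mul]
    calc A.valuation (q : Qb) * A.valuation ((q.den : ℕ) : Qb)
        ≤ 1 * A.valuation ((q.den : ℕ) : Qb) := mul_le_mul_left hle _
      _ < 1 := by rw [one_mul]; exact hvden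
  rw [hvnum] at this
  exact lt_irrefl _ this

/-- A rational number integral at one place over every prime `ℓ ≠ p` has denominator a power
of `p`. -/
theorem den_eq_prime_pow {p : ℕ} {q : ℚ}
    (h : ∀ ℓ : ℕ, ℓ.Prime → ℓ ≠ p → ∃ A : ValuationSubring Qb, A.LiesOverPrime ℓ ∧ (q : Qb) ∈ A) :
    ∃ k : ℕ, q.den = p ^ k := by
  refine ⟨q.den.primeFactorsList.length, ?_⟩
  refine Nat.eq_prime_pow_of_unique_prime_dvd q.den_ne_zero ?_
  intro ℓ hℓ hdvd
  by_contra hne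
  obtain ⟨A, hA, hq⟩ := h ℓ hℓ hne
  exact not_dvd_den_of_mem hℓ hA hq hdvd

/-- Clearing the denominator. -/
theorem exists_int_mul_pow {p : ℕ} {q : ℚ} {k : ℕ} (hk : q.den = p ^ k) {m : ℕ} (hm : k ≤ m) :
    ∃ z : ℤ, (z : ℚ) = (p : ℚ) ^ m * q := by
  obtain ⟨d, rfl⟩ := Nat.exists_eq_add_of_le hm
  refine ⟨(p : ℤ) ^ d * q.num, ?_⟩
  have hden : (q.den : ℚ) ≠ 0 := by exact_mod_cast q.den_ne_zero
  have hp0 : (p : ℚ) ^ k ≠ 0 := by
    have : ((p ^ k : ℕ) : ℚ) ≠ 0 := by rw [← hk]; exact hden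
    exact_mod_cast this
  have hq : q * (p : ℚ) ^ k = (q.num : ℚ) := by
    have h1 := Rat.mul_den_eq_num q
    rw [hk] at h1
    exact_mod_cast h1
  push_cast
  rw [pow_add, ← hq]
  ring

end Rat

/-! ### The integral model -/

section Model

variable {p : ℕ}

/-- The unit `p ^ k` of `ℚbar`. -/
noncomputable def ppow (hp : p.Prime) (k : ℕ) : Qbˣ :=
  Units.mk0 ((p : Qb) ^ k) (pow_ne_zero k (by exact_mod_cast hp.ne_zero))

@[simp] theorem coe_ppow (hp : p.Prime) (k : ℕ) : ((ppow hp k : Qbˣ) : Qb) = (p : Qb) ^ k := rfl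

theorem valuation_ppow (hp : p.Prime) (k : ℕ) {ℓ : ℕ} (hℓ : ℓ.Prime) (hℓp : ℓ ≠ p)
    {A : ValuationSubring Qb} (hA : A.LiesOverPrime ℓ) :
    A.valuation ((ppow hp k : Qbˣ) : Qb) = 1 := by
  rw [coe_ppow, map_pow, valuation_prime_eq_one hℓ hA hp hℓp, one_pow]

/-- A coefficient that is Galois-fixed and integral away from `p` becomes an integer after
multiplication by a large power of `p`. -/
theorem exists_int_coeff (a : Qb)
    (hfix : ∀ σ : Qb ≃ₐ[ℚ] Qb, σ a = a)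
    (hint : ∀ ℓ : ℕ, ℓ.Prime → ℓ ≠ p → ∃ A : ValuationSubring Qb, A.LiesOverPrime ℓ ∧ a ∈ A) :
    ∃ k : ℕ, ∀ m : ℕ, k ≤ m → ∃ z : ℤ, ((z : ℤ) : Qb) = (p : Qb) ^ m * a := by
  obtain ⟨q, rfl⟩ := Fermat.Agent.S13.GalRat.exists_ratCast_of_fixed a hfix
  obtain ⟨k, hk⟩ := den_eq_prime_pow hint
  refine ⟨k, fun m hm => ?_⟩
  obtain ⟨z, hz⟩ := exists_int_mul_pow hk hm
  refine ⟨z, ?_⟩
  have := congrArg (fun r : ℚ => (r : Qb)) hz
  simpa using this

/-- **The `ℤ`-model.**  A Weierstrass curve over `ℚbar` whose coefficients are Galois-fixed and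
integral at one place over every prime `ℓ ≠ p` is, after the scaling `(x, y) ↦ (p^{2k} x, p^{3k} y)`,
the base change of a Weierstrass curve over `ℤ`. -/
theorem exists_int_model (hp : p.Prime) (V : WeierstrassCurve Qb)
    (hfix : ∀ σ : Qb ≃ₐ[ℚ] Qb, σ V.a₁ = V.a₁ ∧ σ V.a₂ = V.a₂ ∧ σ V.a₃ = V.a₃ ∧ σ V.a₄ = V.a₄ ∧
      σ V.a₆ = V.a₆)
    (hint : ∀ ℓ : ℕ, ℓ.Prime → ℓ ≠ p →
      ∃ A : ValuationSubring Qb, A.LiesOverPrime ℓ ∧ IntegralAt A V) :
    ∃ (k : ℕ) (W' : WeierstrassCurve ℤ),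
      V = scaleVC (ppow hp k) • ((W'.map (Int.castRingHom ℚ))⁄Qb) := by
  obtain ⟨k₁, h₁⟩ := exists_int_coeff V.a₁ (fun σ => (hfix σ).1)
    (fun ℓ hℓ hne => by obtain ⟨A, hA, hV⟩ := hint ℓ hℓ hne; exact ⟨A, hA, hV.a₁⟩)
  obtain ⟨k₂, h₂⟩ := exists_int_coeff V.a₂ (fun σ => (hfix σ).2.1)
    (fun ℓ hℓ hne => by obtain ⟨A, hA, hV⟩ := hint ℓ hℓ hne; exact ⟨A, hA, hV.a₂⟩)
  obtain ⟨k₃, h₃⟩ := exists_int_coeff V.a₃ (fun σ => (hfix σ).2.2.1)
    (fun ℓ hℓ hne => by obtain ⟨A, hA, hV⟩ := hint ℓ hℓ hne; exact ⟨A, hA, hV.a₃⟩)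
  obtain ⟨k₄, h₄⟩ := exists_int_coeff V.a₄ (fun σ => (hfix σ).2.2.2.1)
    (fun ℓ hℓ hne => by obtain ⟨A, hA, hV⟩ := hint ℓ hℓ hne; exact ⟨A, hA, hV.a₄⟩)
  obtain ⟨k₆, h₆⟩ := exists_int_coeff V.a₆ (fun σ => (hfix σ).2.2.2.2)
    (fun ℓ hℓ hne => by obtain ⟨A, hA, hV⟩ := hint ℓ hℓ hne; exact ⟨A, hA, hV.a₆⟩)
  set k : ℕ := k₁ + k₂ + k₃ + k₄ + k₆ with hk
  obtain ⟨z₁, hz₁⟩ := h₁ k (by omega)
  obtain ⟨z₂, hz₂⟩ := h₂ (2 * k) (by omega)
  obtain ⟨z₃, hz₃⟩ := h₃ (3 * k) (by omega)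
  obtain ⟨z₄, hz₄⟩ := h₄ (4 * k) (by omega)
  obtain ⟨z₆, hz₆⟩ := h₆ (6 * k) (by omega)
  refine ⟨k, ⟨z₁, z₂, z₃, z₄, z₆⟩, ?_⟩
  have hp0 : (p : Qb) ^ k ≠ 0 := pow_ne_zero k (by exact_mod_cast hp.ne_zero)
  have hinv : (((scaleVC (ppow hp k)).u⁻¹ : Qbˣ) : Qb) = ((p : Qb) ^ k)⁻¹ := by
    simp [scaleVC]
  have e : ∀ z : ℤ, algebraMap ℚ Qb ((Int.castRingHom ℚ) z) = ((z : ℤ) : Qb) := fun z => by simp
  ext
  · rw [variableChange_a₁, hinv]
    show V.a₁ = _ * (algebraMap ℚ Qb ((Int.castRingHom ℚ) z₁) + 2 * 0)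
    rw [e, hz₁]
    field_simp
    ring
  · rw [variableChange_a₂, hinv]
    show V.a₂ = _ * (algebraMap ℚ Qb ((Int.castRingHom ℚ) z₂) -
      0 * algebraMap ℚ Qb ((Int.castRingHom ℚ) z₁) + 3 * 0 - 0 ^ 2)
    rw [e, hz₂, pow_mul']
    field_simp
    ring
  · rw [variableChange_a₃, hinv]
    show V.a₃ = _ * (algebraMap ℚ Qb ((Int.castRingHom ℚ) z₃) +
      0 * algebraMap ℚ Qb ((Int.castRingHom ℚ) z₁) + 2 * 0)
    rw [e, hz₃, pow_mul']
    field_simp
    ring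
  · rw [variableChange_a₄, hinv]
    show V.a₄ = _ * (algebraMap ℚ Qb ((Int.castRingHom ℚ) z₄) -
      0 * algebraMap ℚ Qb ((Int.castRingHom ℚ) z₃) +
      2 * 0 * algebraMap ℚ Qb ((Int.castRingHom ℚ) z₂) -
      (0 + 0 * 0) * algebraMap ℚ Qb ((Int.castRingHom ℚ) z₁) + 3 * 0 ^ 2 - 2 * 0 * 0)
    rw [e, hz₄, pow_mul']
    field_simp
    ring
  · rw [variableChange_a₆, hinv]
    show V.a₆ = _ * (algebraMap ℚ Qb ((Int.castRingHom ℚ) z₆) +
      0 * algebraMap ℚ Qb ((Int.castRingHom ℚ) z₄) +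
      0 ^ 2 * algebraMap ℚ Qb ((Int.castRingHom ℚ) z₂) + 0 ^ 3 -
      0 * algebraMap ℚ Qb ((Int.castRingHom ℚ) z₃) - 0 ^ 2 -
      0 * 0 * algebraMap ℚ Qb ((Int.castRingHom ℚ) z₁))
    rw [e, hz₆, pow_mul']
    field_simp
    ring

end Model

/-! ### The zero component on the `ℤ`-model -/

section Transfer

variable {p : ℕ}

theorem baseChange_coeff (W' : WeierstrassCurve ℤ) :
    ((W'.map (Int.castRingHom ℚ))⁄Qb) =
      ⟨((W'.a₁ : ℤ) : Qb), ((W'.a₂ : ℤ) : Qb), ((W'.a₃ : ℤ) : Qb), ((W'.a₄ : ℤ) : Qb),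
        ((W'.a₆ : ℤ) : Qb)⟩ := by
  ext <;> simp [WeierstrassCurve.baseChange, WeierstrassCurve.map]

/-- The base change of a curve over `ℤ` is integral at every valuation subring. -/
theorem integralAt_int (W' : WeierstrassCurve ℤ) (A : ValuationSubring Qb) :
    IntegralAt A ((W'.map (Int.castRingHom ℚ))⁄Qb) := by
  rw [baseChange_coeff]
  exact ⟨intCast_mem A _, intCast_mem A _, intCast_mem A _, intCast_mem A _, intCast_mem A _⟩

theorem intModel_int (W' : WeierstrassCurve ℤ) (A : ValuationSubring Qb) :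
    intModel A ((W'.map (Int.castRingHom ℚ))⁄Qb) (integralAt_int W' A) =
      W'.map (Int.castRingHom A) := by
  apply WeierstrassCurve.map_injective (f := A.subtype) Subtype.val_injective
  show (intModel A _ _).map A.subtype = (W'.map (Int.castRingHom A)).map A.subtype
  rw [intModel_map, baseChange_coeff]
  ext <;> simp [WeierstrassCurve.map]

/-- The reduction of the base change of a curve over `ℤ` is its reduction. -/
theorem redCurve_int (W' : WeierstrassCurve ℤ) (A : ValuationSubring Qb) :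
    redCurve A ((W'.map (Int.castRingHom ℚ))⁄Qb) (integralAt_int W' A) =
      W'.map (Int.castRingHom (IsLocalRing.ResidueField A)) := by
  unfold redCurve
  rw [intModel_int, WeierstrassCurve.map_map]
  congr 1

/-- **Zero component on the `ℤ`-model.**  If `V = scaleVC (p^k) • W'_ℚbar`, `A` lies over `ℓ ≠ p` and
`V` is integral at `A`, then the image of `P` on the `ℤ`-model `W'` is in the zero component at `A`
(Prelude predicate) iff `P` is in the zero component of `V`, computed on the reduction of `V`. -/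
theorem inZeroComponentAt_pointEquiv_iff (hp : p.Prime) {V : WeierstrassCurve Qb} {k : ℕ}
    {W' : WeierstrassCurve ℤ}
    (h : V = scaleVC (ppow hp k) • ((W'.map (Int.castRingHom ℚ))⁄Qb))
    {ℓ : ℕ} (hℓ : ℓ.Prime) (hℓp : ℓ ≠ p) {A : ValuationSubring Qb} (hA : A.LiesOverPrime ℓ)
    (hV : IntegralAt A V) (P : V.toAffine.Point) :
    W'.InZeroComponentAt A (pointEquiv h P) ↔ InZeroG A V (redCurve A V hV) P := by
  rw [inZeroComponentAt_iff, ← redCurve_int W' A]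
  exact inZeroG_pointEquiv_iff' hV (integralAt_int W' A)
    (vcIntegralAt_scaleVC A _ (valuation_ppow hp k hℓ hℓp hA)) h P

/-! ### Discriminant and `c₄` -/

theorem intCast_Δ_eq (hp : p.Prime) {V : WeierstrassCurve Qb} {k : ℕ} {W' : WeierstrassCurve ℤ}
    (h : V = scaleVC (ppow hp k) • ((W'.map (Int.castRingHom ℚ))⁄Qb)) :
    ((W'.Δ : ℤ) : Qb) = ((p : Qb) ^ k) ^ 12 * V.Δ := by
  have hp0 : (p : Qb) ^ k ≠ 0 := pow_ne_zero k (by exact_mod_cast hp.ne_zero)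
  have hinv : (((scaleVC (ppow hp k)).u⁻¹ : Qbˣ) : Qb) = ((p : Qb) ^ k)⁻¹ := by
    simp [scaleVC]
  have hΔ : ((W'.map (Int.castRingHom ℚ))⁄Qb).Δ = ((W'.Δ : ℤ) : Qb) := by
    simp [WeierstrassCurve.baseChange, WeierstrassCurve.map_Δ]
  rw [h, variableChange_Δ, hinv, hΔ]
  field_simp

theorem intCast_c₄_eq (hp : p.Prime) {V : WeierstrassCurve Qb} {k : ℕ} {W' : WeierstrassCurve ℤ}
    (h : V = scaleVC (ppow hp k) • ((W'.map (Int.castRingHom ℚ))⁄Qb)) :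
    ((W'.c₄ : ℤ) : Qb) = ((p : Qb) ^ k) ^ 4 * V.c₄ := by
  have hp0 : (p : Qb) ^ k ≠ 0 := pow_ne_zero k (by exact_mod_cast hp.ne_zero)
  have hinv : (((scaleVC (ppow hp k)).u⁻¹ : Qbˣ) : Qb) = ((p : Qb) ^ k)⁻¹ := by
    simp [scaleVC]
  have hc : ((W'.map (Int.castRingHom ℚ))⁄Qb).c₄ = ((W'.c₄ : ℤ) : Qb) := by
    simp [WeierstrassCurve.baseChange, WeierstrassCurve.map_c₄]
  rw [h, variableChange_c₄, hinv, hc]
  field_simp

theorem int_Δ_ne_zero (hp : p.Prime) {V : WeierstrassCurve Qb} {k : ℕ} {W' : WeierstrassCurve ℤ}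
    (h : V = scaleVC (ppow hp k) • ((W'.map (Int.castRingHom ℚ))⁄Qb)) (hV : V.Δ ≠ 0) :
    W'.Δ ≠ 0 := by
  intro h0
  have := intCast_Δ_eq hp h
  rw [h0, Int.cast_zero] at this
  have hp0 : ((p : Qb) ^ k) ^ 12 ≠ 0 :=
    pow_ne_zero 12 (pow_ne_zero k (by exact_mod_cast hp.ne_zero))
  exact hV ((mul_eq_zero.mp this.symm).resolve_left hp0)

/-- `ℓ ∣ Δ(W')` iff `Δ(V)` is a non-unit at `A` (`A` over `ℓ ≠ p`). -/
theorem dvd_Δ_iff (hp : p.Prime) {V : WeierstrassCurve Qb} {k : ℕ} {W' : WeierstrassCurve ℤ}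
    (h : V = scaleVC (ppow hp k) • ((W'.map (Int.castRingHom ℚ))⁄Qb))
    {ℓ : ℕ} (hℓ : ℓ.Prime) (hℓp : ℓ ≠ p) {A : ValuationSubring Qb} (hA : A.LiesOverPrime ℓ) :
    (ℓ : ℤ) ∣ W'.Δ ↔ A.valuation V.Δ < 1 := by
  rw [← valuation_intCast_lt_one_iff hℓ hA, intCast_Δ_eq hp h, map_mul, map_pow, map_pow,
    valuation_prime_eq_one hℓ hA hp hℓp, one_pow, one_pow, one_mul]

/-- `ℓ ∣ c₄(W')` iff `c₄(V)` is a non-unit at `A` (`A` over `ℓ ≠ p`). -/
theorem dvd_c₄_iff (hp : p.Prime) {V : WeierstrassCurve Qb} {k : ℕ} {W' : WeierstrassCurve ℤ}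
    (h : V = scaleVC (ppow hp k) • ((W'.map (Int.castRingHom ℚ))⁄Qb))
    {ℓ : ℕ} (hℓ : ℓ.Prime) (hℓp : ℓ ≠ p) {A : ValuationSubring Qb} (hA : A.LiesOverPrime ℓ) :
    (ℓ : ℤ) ∣ W'.c₄ ↔ A.valuation V.c₄ < 1 := by
  rw [← valuation_intCast_lt_one_iff hℓ hA, intCast_c₄_eq hp h, map_mul, map_pow, map_pow,
    valuation_prime_eq_one hℓ hA hp hℓp, one_pow, one_pow, one_mul]

end Transfer

end Fermat.Agent.S12P.Model82
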