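/-
Programme S12 (one-step route, lead helper51), brick 757 part 9a-3 (helper82).

**The rational point of order `p` on the `ℤ`-model**: for `h : V = scaleVC (p^k) • W'_ℚbar`
(`IntModel.exists_int_model`) and a point `P` of `V`,

* `smul_pointEquiv_of_fixed` : if the coordinates of `P` are fixed by `σ ∈ Gal(ℚbar/ℚ)` then
  `σ • pointEquiv h P = pointEquiv h P` (Prelude action on `(W'_ℚ ⁄ ℚbar).Point`);
* `addOrderOf_pointEquiv`    : `addOrderOf (pointEquiv h P) = addOrderOf P`;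
* `exists_s15_data`          : ONE-STOP: from `V` (Galois-fixed coefficients, integral away from `p`,
  `Δ ≠ 0`) and `P` of order `p` with Galois-fixed coordinates: a `ℤ`-model `W'` with `Δ ≠ 0` and a
  Galois-fixed point `Q'` of order `p` on it = the inputs `(W, hΔ, Q, hQfix, hQord)` of the frozen
  `S15`, together with the dictionary for the zero component at every `A` over `ℓ ≠ p` and for
  `ℓ ∣ Δ`, `ℓ ∣ c₄`.
-/
import Mathlib
import Fermat.Agent.S12P.Model82.IntModel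

set_option autoImplicit false

open WeierstrassCurve WeierstrassCurve.Affine

namespace Fermat.Agent.S12P.Model82

open Fermat.Agent.S05.Transport Fermat.Agent.S05.Inertia

local notation "Qb" => AlgebraicClosure ℚ

variable {p : ℕ}

/-- A point of the `ℤ`-model whose coordinates on `V` are `σ`-fixed is `σ`-fixed. -/
theorem smul_pointEquiv_of_fixed (hp : p.Prime) {V : WeierstrassCurve Qb} {k : ℕ}
    {W' : WeierstrassCurve ℤ}
    (h : V = scaleVC (ppow hp k) • ((W'.map (Int.castRingHom ℚ))⁄Qb))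
    (σ : Qb ≃ₐ[ℚ] Qb) {x y : Qb} (hxy : V.toAffine.Nonsingular x y)
    (hx : σ x = x) (hy : σ y = y) :
    σ • (pointEquiv h (.some x y hxy)) = pointEquiv h (.some x y hxy) := by
  rw [Fermat.Agent.S05.Transport.pointEquiv_some, Point.algEquiv_smul_def, Point.map_some]
  have hu : σ ((p : Qb) ^ k) = (p : Qb) ^ k := by rw [map_pow, map_natCast]
  have hX : σ (vcX (scaleVC (ppow hp k)) x) = vcX (scaleVC (ppow hp k)) x := by
    simp only [vcX, scaleVC, coe_ppow, map_add, map_mul, map_pow, map_natCast, hx, map_zero]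
  have hY : σ (vcY (scaleVC (ppow hp k)) x y) = vcY (scaleVC (ppow hp k)) x y := by
    simp only [vcY, scaleVC, coe_ppow, map_add, map_mul, map_pow, map_natCast, hx, hy, map_zero]
  congr 1

theorem smul_pointEquiv_zero (hp : p.Prime) {V : WeierstrassCurve Qb} {k : ℕ}
    {W' : WeierstrassCurve ℤ}
    (h : V = scaleVC (ppow hp k) • ((W'.map (Int.castRingHom ℚ))⁄Qb))
    (σ : Qb ≃ₐ[ℚ] Qb) :
    σ • (pointEquiv h (0 : V.toAffine.Point)) = pointEquiv h 0 := by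
  rw [map_zero, smul_zero]

theorem addOrderOf_pointEquiv {V V' : WeierstrassCurve Qb} {C : VariableChange Qb}
    (h : V = C • V') (P : V.toAffine.Point) :
    addOrderOf (pointEquiv h P) = addOrderOf P :=
  AddEquiv.addOrderOf_eq (pointEquiv h) P

/-- **One-stop form of brick 9a.** -/
theorem exists_s15_data (hp : p.Prime) (V : WeierstrassCurve Qb)
    (hfix : ∀ σ : Qb ≃ₐ[ℚ] Qb, σ V.a₁ = V.a₁ ∧ σ V.a₂ = V.a₂ ∧ σ V.a₃ = V.a₃ ∧ σ V.a₄ = V.a₄ ∧
      σ V.a₆ = V.a₆)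
    (hint : ∀ ℓ : ℕ, ℓ.Prime → ℓ ≠ p →
      ∃ A : ValuationSubring Qb, A.LiesOverPrime ℓ ∧ IntegralAt A V)
    (hΔ : V.Δ ≠ 0) {x y : Qb} (hxy : V.toAffine.Nonsingular x y)
    (hxfix : ∀ σ : Qb ≃ₐ[ℚ] Qb, σ x = x) (hyfix : ∀ σ : Qb ≃ₐ[ℚ] Qb, σ y = y)
    (hord : addOrderOf (Point.some x y hxy) = p) :
    ∃ (k : ℕ) (W' : WeierstrassCurve ℤ)
      (h : V = scaleVC (ppow hp k) • ((W'.map (Int.castRingHom ℚ))⁄Qb)),
      W'.Δ ≠ 0 ∧
      (∀ σ : Qb ≃ₐ[ℚ] Qb, σ • (pointEquiv h (.some x y hxy)) = pointEquiv h (.some x y hxy)) ∧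
      addOrderOf (pointEquiv h (.some x y hxy)) = p ∧
      (∀ (ℓ : ℕ), ℓ.Prime → ℓ ≠ p → ∀ A : ValuationSubring Qb, A.LiesOverPrime ℓ →
        ((ℓ : ℤ) ∣ W'.Δ ↔ A.valuation V.Δ < 1) ∧ ((ℓ : ℤ) ∣ W'.c₄ ↔ A.valuation V.c₄ < 1) ∧
        ∀ hV : IntegralAt A V, ∀ P : V.toAffine.Point,
          (W'.InZeroComponentAt A (pointEquiv h P) ↔ InZeroG A V (redCurve A V hV) P)) := by
  obtain ⟨k, W', h⟩ := exists_int_model hp V hfix hint
  refine ⟨k, W', h, int_Δ_ne_zero hp h hΔ,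
    fun σ => smul_pointEquiv_of_fixed hp h σ hxy (hxfix σ) (hyfix σ), ?_, ?_⟩
  · rw [addOrderOf_pointEquiv, hord]
  · intro ℓ hℓ hℓp A hA
    exact ⟨dvd_Δ_iff hp h hℓ hℓp hA, dvd_c₄_iff hp h hℓ hℓp hA,
      fun hV P => inZeroComponentAt_pointEquiv_iff hp h hℓ hℓp hA hV P⟩

end Fermat.Agent.S12P.Model82
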